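/-
P-S33, LAYER 1 (a) (helper43): the `p`-power radical closure of a glued ring with reduced gluing ring.

`S ≤ B₁ × B₂` a subalgebra with surjective projections (Goursat: `S = B₁ ×_R B₂`,
`R = B₂ ⧸ {g | (0, g) ∈ S}`), `k` of characteristic `p`.

* `mem_of_pow_mem` : if `R` is reduced, `n ^ (p ^ e) ∈ S` implies `n ∈ S` (Frobenius is injective
  on a reduced ring of characteristic `p`);
* `eq_of_le_of_finrank_quotient_le` : `N ≤ S'` of finite codimension with
  `codim N ≤ codim S'` are equal;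
* `eq_of_pow_mem` : (NL) in abstract form.  If `S` has finite codimension, every element of the
  gluing ring is a `q`-th power (`q ≥ 2`; so `R` is reduced: ordinary nodes), `N` is a `k`-subspace
  of codimension at most that of `S` with `n ^ (p ^ e) ∈ S` for all `n ∈ N`, then `N = S`;
  in particular `1 ∈ N` (`one_mem_of_pow_mem`).

For a torsion exponent `m = p ^ e` which is a power of the residue characteristic the gluing
constants of `NodeLinAlg.exists_graph_of_codim_le` (Lemma A) are forced to be `1`; we do not even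
need Lemma A.
-/
import Mathlib
import Fermat.Agent.S34x.NodeLinAlg

set_option autoImplicit false
set_option linter.style.haveILetI false

namespace Fermat.Agent.S33x.L1.FrobGlue

open Module Fermat.Agent.S34x.NodeLinAlg

section Frob

variable {k : Type*} [Field k] {R : Type*} [CommRing R] [Algebra k R] [IsReduced R]

/-- In a reduced algebra over a field of characteristic `p`, `x ↦ x ^ (p ^ e)` is injective. -/
theorem eq_of_pow_char_pow_eq (p : ℕ) [Fact p.Prime] [CharP k p] {e : ℕ} {x y : R}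
    (h : x ^ (p ^ e) = y ^ (p ^ e)) : x = y := by
  rcases subsingleton_or_nontrivial R with hs | hn
  · exact Subsingleton.elim x y
  · haveI : CharP R p := charP_of_injective_algebraMap (algebraMap k R).injective p
    have h1 : (x - y) ^ (p ^ e) = 0 := by
      rw [sub_pow_char_pow, h, sub_self]
    have h2 : IsNilpotent (x - y) := ⟨p ^ e, h1⟩
    exact sub_eq_zero.1 (IsReduced.eq_zero _ h2)

end Frob

section Glue

variable {k : Type*} [Field k]
variable {B₁ B₂ : Type*} [CommRing B₁] [CommRing B₂] [Algebra k B₁] [Algebra k B₂]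

/-- **`p`-power radical closure of the glued ring.** -/
theorem mem_of_pow_mem (S : Subalgebra k (B₁ × B₂)) (h₁ : ∀ f, ∃ g, (f, g) ∈ S)
    (h₂ : ∀ g, ∃ f, (f, g) ∈ S) [IsReduced (B₂ ⧸ sndIdeal S h₂)]
    (p : ℕ) [Fact p.Prime] [CharP k p] {e : ℕ} {n : B₁ × B₂} (hn : n ^ (p ^ e) ∈ S) : n ∈ S := by
  rw [mem_iff_gluingHom S h₁ h₂] at hn ⊢
  rw [Prod.pow_fst, Prod.pow_snd, map_pow, map_pow] at hn
  exact eq_of_pow_char_pow_eq (k := k) p hn

end Glue

section Codim

variable {k : Type*} [Field k] {V : Type*} [AddCommGroup V] [Module k V]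

/-- Two nested subspaces of finite codimension, the smaller of codimension at most that of the
larger, are equal. -/
theorem eq_of_le_of_finrank_quotient_le (N S : Submodule k V) (hle : N ≤ S)
    [Module.Finite k (V ⧸ N)] [Module.Finite k (V ⧸ S)]
    (h : finrank k (V ⧸ N) ≤ finrank k (V ⧸ S)) : N = S := by
  refine le_antisymm hle fun s hs => ?_
  have hsurj : Function.Surjective (Submodule.factor hle) := Submodule.factor_surjective hle
  have hfin : finrank k (V ⧸ N) = finrank k (V ⧸ S) :=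
    le_antisymm h (LinearMap.finrank_le_finrank_of_surjective hsurj)
  have hinj : Function.Injective (Submodule.factor hle) :=
    (LinearMap.injective_iff_surjective_of_finrank_eq_finrank hfin).2 hsurj
  have h0 : Submodule.factor hle (N.mkQ s) = 0 := by
    rw [Submodule.mkQ_apply]
    exact (Submodule.Quotient.mk_eq_zero S).2 hs
  have := hinj (h0.trans (map_zero _).symm)
  exact (Submodule.Quotient.mk_eq_zero N).1 this

end Codim

section Main

variable {k : Type*} [Field k]
variable {B₁ B₂ : Type*} [CommRing B₁] [CommRing B₂] [Algebra k B₁] [Algebra k B₂]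

/-- The gluing ring is reduced as soon as all its elements are `q`-th powers, `q ≥ 2`. -/
theorem isReduced_gluing (S : Subalgebra k (B₁ × B₂)) (h₁ : ∀ f, ∃ g, (f, g) ∈ S)
    (h₂ : ∀ g, ∃ f, (f, g) ∈ S)
    [Module.Finite k ((B₁ × B₂) ⧸ Subalgebra.toSubmodule S)]
    {q : ℕ} (hq : 2 ≤ q) (hpth : ∀ g : B₂, ∃ g' : B₂, ((0 : B₁), g - g' ^ q) ∈ S) :
    IsReduced (B₂ ⧸ sndIdeal S h₂) := by
  let E := quotientEquiv S h₁ h₂
  have : FiniteDimensional k (B₂ ⧸ sndIdeal S h₂) := Module.Finite.equiv E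
  have : IsArtinianRing (B₂ ⧸ sndIdeal S h₂) := IsArtinianRing.of_finite k _
  apply isReduced_of_forall_exists_pow_eq hq
  intro r
  obtain ⟨g, rfl⟩ := Ideal.Quotient.mk_surjective r
  obtain ⟨g', hg'⟩ := hpth g
  refine ⟨Ideal.Quotient.mk (sndIdeal S h₂) g', ?_⟩
  rw [← map_pow]
  exact (Ideal.Quotient.eq.2 (mem_sndIdeal.2 hg')).symm

/-- **(NL), abstract form.**  A subspace `N` of `B₁ × B₂` of codimension at most that of the
glued ring `S` (ordinary nodes), all of whose elements have their `p ^ e`-th power in `S`, IS `S`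
(`p` the characteristic of `k`). -/
theorem eq_of_pow_mem (S : Subalgebra k (B₁ × B₂)) (h₁ : ∀ f, ∃ g, (f, g) ∈ S)
    (h₂ : ∀ g, ∃ f, (f, g) ∈ S)
    [Module.Finite k ((B₁ × B₂) ⧸ Subalgebra.toSubmodule S)]
    {q : ℕ} (hq : 2 ≤ q) (hpth : ∀ g : B₂, ∃ g' : B₂, ((0 : B₁), g - g' ^ q) ∈ S)
    (p : ℕ) [Fact p.Prime] [CharP k p]
    (N : Submodule k (B₁ × B₂)) [Module.Finite k ((B₁ × B₂) ⧸ N)]
    (hcodim : finrank k ((B₁ × B₂) ⧸ N) ≤ finrank k ((B₁ × B₂) ⧸ Subalgebra.toSubmodule S))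
    {e : ℕ} (hpow : ∀ n ∈ N, n ^ (p ^ e) ∈ S) : N = Subalgebra.toSubmodule S := by
  haveI := isReduced_gluing S h₁ h₂ hq hpth
  refine eq_of_le_of_finrank_quotient_le N (Subalgebra.toSubmodule S) (fun n hn => ?_) hcodim
  exact mem_of_pow_mem S h₁ h₂ p (hpow n hn)

theorem one_mem_of_pow_mem (S : Subalgebra k (B₁ × B₂)) (h₁ : ∀ f, ∃ g, (f, g) ∈ S)
    (h₂ : ∀ g, ∃ f, (f, g) ∈ S)
    [Module.Finite k ((B₁ × B₂) ⧸ Subalgebra.toSubmodule S)]
    {q : ℕ} (hq : 2 ≤ q) (hpth : ∀ g : B₂, ∃ g' : B₂, ((0 : B₁), g - g' ^ q) ∈ S)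
    (p : ℕ) [Fact p.Prime] [CharP k p]
    (N : Submodule k (B₁ × B₂)) [Module.Finite k ((B₁ × B₂) ⧸ N)]
    (hcodim : finrank k ((B₁ × B₂) ⧸ N) ≤ finrank k ((B₁ × B₂) ⧸ Subalgebra.toSubmodule S))
    {e : ℕ} (hpow : ∀ n ∈ N, n ^ (p ^ e) ∈ S) : (1 : B₁ × B₂) ∈ N := by
  rw [eq_of_pow_mem S h₁ h₂ hq hpth p N hcodim hpow]
  exact S.one_mem

end Main

end Fermat.Agent.S33x.L1.FrobGlue
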