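/-
P-S33, LAYER 1 (b) (helper43): (NL) in the `Lattice2` vocabulary of S34x, for a torsion exponent
`m = p ^ e` which is a power of the RESIDUE characteristic.

`R : RedSetup2 A S k (κ₁ × κ₂)`, `C : ChartCoord R`, `W : TwistFam C (p ^ e)` (e.g.
`TwistFam.ofDivisor` of a normalised Kummer pair `(w, D)`, `p ^ e D = div w`, `res w = 1`).  From the
inputs of `TwistFam.codim_main_of_isL2` (which only needs `0 < m`) and (N1) on both charts: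

`1 ∈ W.Nbar 1` and `1 ∈ W.swap.Nbar 1`, i.e. there are `b` and `h ∈ W.L 1 0 b ∩ O` with `res h = 1`
and `a` and `h' ∈ W.L 1 a 0 ∩ O` with `res h' = 1`: the twisted chart modules of `D` ITSELF contain
an element reducing to `1` on both charts (`hone`, `hone'` of `TheoremB` hold for `D`).

No use of `IsUnit (m : A)`; no Lemma A (the gluing constants are forced to be `1`).
-/
import Fermat.Agent.S34x.Lattice2.UBBridge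
import Fermat.Agent.S33x.L1.FrobGlue

set_option autoImplicit false
set_option linter.unusedSectionVars false
set_option linter.style.haveILetI false

noncomputable section

namespace Fermat.Agent.S33x.L1.OneOfCounts

open Module
open Fermat.Agent.S34x.C0two Fermat.Agent.S34x.Lattice2

variable {K : Type*} [Field K] {A : ValuationSubring K}
  {F : Type*} [Field F] [Algebra K F] {S : SmallRing F}
  {k κ₁ κ₂ : Type*} [Field k] [CommRing κ₁] [CommRing κ₂] [Algebra k κ₁]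
  [Algebra k κ₂]
  {R : RedSetup2 A S k (κ₁ × κ₂)} {C : ChartCoord R}

/-- **(NL), one chart, abstract**: if `N_1` has codimension at most that of `B̄` in `B₁ × B₂`, the
nodes are ordinary ((L2) + (N1)) and `m = p ^ e` with `p = char k`, then `1 ∈ N_1`. -/
theorem one_mem_Nbar_of_codim (p : ℕ) [Fact p.Prime] [CharP k p] {e : ℕ}
    (W : TwistFam C (p ^ e)) (hL2 : C.IsL2)
    [Module.Finite k ((C.B₁ × C.B₂) ⧸ Subalgebra.toSubmodule C.BbarT)]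
    {q : ℕ} (hq : 2 ≤ q)
    (hN1 : ∀ g : C.B₂, ∃ g' : C.B₂, ((0 : C.B₁), g - g' ^ q) ∈ C.BbarT)
    [Module.Finite k ((C.B₁ × C.B₂) ⧸ W.NbarT 1)]
    (hcodim : finrank k ((C.B₁ × C.B₂) ⧸ W.NbarT 1) ≤
      finrank k ((C.B₁ × C.B₂) ⧸ Subalgebra.toSubmodule C.BbarT)) :
    (1 : κ₁ × κ₂) ∈ W.Nbar 1 := by
  have h := Fermat.Agent.S33x.L1.FrobGlue.one_mem_of_pow_mem C.BbarT hL2.h1 hL2.h2 hq hN1 p (W.NbarT 1) hcodim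
    (e := e) (fun n hn => by
      rw [ChartCoord.mem_BbarT_iff, map_pow]
      exact W.pow_mem_Bbar hn)
  have h2 : C.incl 1 ∈ W.Nbar 1 := h
  rwa [map_one] at h2

/-- **(NL), both charts**, from the inputs of WP-UB (`TwistFam.codim_main_of_isL2`). -/
theorem one_mem_Nbar_both (p : ℕ) [Fact p.Prime] [CharP k p] {e : ℕ}
    (W : TwistFam C (p ^ e))
    (hcart : ∀ b, (R.lat (C.LN 0 b)).FG)
    (hPfin : ∀ b, Module.Finite k (C.Pk 0 b)) (b₀ : ℕ)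
    (hP : ∀ b, b₀ ≤ b → ∀ x ∈ C.Pk 0 (b + 1), ∃ p₁ ∈ C.Pk 0 b, ∃ p₂ ∈ C.Pk 0 b,
      x = p₁ + C.T * p₂)
    (hL2 : C.IsL2) (hL2₀ : C.swap.IsL2)
    (he : ∃ c : κ₂, IsIntegral (Algebra.adjoin k {C.T.2}) c ∧ ((1 : κ₁), c * C.T.2) ∈ C.Bbar)
    (he₀ : ∃ c : κ₂, IsIntegral (Algebra.adjoin k {C.Ti.2}) c ∧
      ((1 : κ₁), c * C.Ti.2) ∈ C.swap.Bbar)
    {q : ℕ} (hq : 2 ≤ q)
    (hN1 : ∀ g : C.B₂, ∃ g' : C.B₂, ((0 : C.B₁), g - g' ^ q) ∈ C.BbarT)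
    {q₀ : ℕ} (hq₀ : 2 ≤ q₀)
    (hN1₀ : ∀ g : C.swap.B₂, ∃ g' : C.swap.B₂, ((0 : C.swap.B₁), g - g' ^ q₀) ∈ C.swap.BbarT)
    (δ b₂ : ℕ)
    (hdimS : ∀ b, b₂ ≤ b → finrank k (C.Pk 0 b) = finrank k (R.redLat (C.LN 0 b)) + δ)
    (hdimN : ∀ b, b₂ ≤ b → finrank k (C.Pk 0 b) ≤ finrank k (R.redLat (W.L 1 0 b)) + δ) :
    (1 : κ₁ × κ₂) ∈ W.Nbar 1 ∧ (1 : κ₁ × κ₂) ∈ W.swap.Nbar 1 := by
  have hm0 : 0 < p ^ e := pow_pos (Fact.out : p.Prime).pos e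
  obtain ⟨⟨i1, i2, -, hc1⟩, ⟨i3, i4, -, hc3⟩⟩ :=
    W.codim_main_of_isL2 hm0 hcart hPfin b₀ hP hL2 hL2₀ he he₀ δ b₂ hdimS 1 hdimN
  exact ⟨one_mem_Nbar_of_codim p W hL2 hq hN1 hc1,
    one_mem_Nbar_of_codim p W.swap hL2₀ hq₀ hN1₀ hc3⟩

/-- the same, unfolded: elements of the twisted lattices reducing to `1`. -/
theorem exists_res_eq_one_both (p : ℕ) [Fact p.Prime] [CharP k p] {e : ℕ}
    (W : TwistFam C (p ^ e))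
    (hcart : ∀ b, (R.lat (C.LN 0 b)).FG)
    (hPfin : ∀ b, Module.Finite k (C.Pk 0 b)) (b₀ : ℕ)
    (hP : ∀ b, b₀ ≤ b → ∀ x ∈ C.Pk 0 (b + 1), ∃ p₁ ∈ C.Pk 0 b, ∃ p₂ ∈ C.Pk 0 b,
      x = p₁ + C.T * p₂)
    (hL2 : C.IsL2) (hL2₀ : C.swap.IsL2)
    (he : ∃ c : κ₂, IsIntegral (Algebra.adjoin k {C.T.2}) c ∧ ((1 : κ₁), c * C.T.2) ∈ C.Bbar)
    (he₀ : ∃ c : κ₂, IsIntegral (Algebra.adjoin k {C.Ti.2}) c ∧
      ((1 : κ₁), c * C.Ti.2) ∈ C.swap.Bbar)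
    {q : ℕ} (hq : 2 ≤ q)
    (hN1 : ∀ g : C.B₂, ∃ g' : C.B₂, ((0 : C.B₁), g - g' ^ q) ∈ C.BbarT)
    {q₀ : ℕ} (hq₀ : 2 ≤ q₀)
    (hN1₀ : ∀ g : C.swap.B₂, ∃ g' : C.swap.B₂, ((0 : C.swap.B₁), g - g' ^ q₀) ∈ C.swap.BbarT)
    (δ b₂ : ℕ)
    (hdimS : ∀ b, b₂ ≤ b → finrank k (C.Pk 0 b) = finrank k (R.redLat (C.LN 0 b)) + δ)
    (hdimN : ∀ b, b₂ ≤ b → finrank k (C.Pk 0 b) ≤ finrank k (R.redLat (W.L 1 0 b)) + δ) :
    (∃ (b : ℕ) (h : F), h ∈ W.L 1 0 b ∧ ∃ hh : h ∈ S.O, R.res ⟨h, hh⟩ = 1) ∧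
    (∃ (a : ℕ) (h : F), h ∈ W.L 1 a 0 ∧ ∃ hh : h ∈ S.O, R.res ⟨h, hh⟩ = 1) := by
  obtain ⟨h1, h2⟩ := one_mem_Nbar_both p W hcart hPfin b₀ hP hL2 hL2₀ he he₀ hq hN1 hq₀ hN1₀
    δ b₂ hdimS hdimN
  constructor
  · obtain ⟨b, h, hh, hL, e1⟩ := h1
    exact ⟨b, h, hL, hh, e1⟩
  · obtain ⟨a, h, hh, hL, e1⟩ := h2
    exact ⟨a, h, by rwa [TwistFam.swap_L] at hL, hh, e1⟩

end Fermat.Agent.S33x.L1.OneOfCounts
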