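/-
P-S33, LAYER 1 (c) (helper43): (NL) at a two-component special fibre `E × E`, `T̄ = (x, x ^ q)`, for a
normalised Kummer pair `(w, D)` with `p ^ e D = div w`, `res w = 1`, `p = char k`:

there are `b`, `h ∈ L(D + b C∞) ∩ O` with `res h = 1` and `a`, `h' ∈ L(D + a C₀) ∩ O` with
`res h' = 1`.

Mirror of `Lattice2.exists_const_mul_pow_of_prod` (S34x/Lattice2/AssembleProd.lean) without the
hypotheses `hm : IsUnit (m : A)`, `g`, `hgt`, `hgO`, `hgres`: the `k`-side inputs are discharged by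
`DimBridgeTwoPole`, the Riemann-Roch counts by `Inst/CountsInst.exists_counts_prod`.
-/
import Fermat.Agent.S34x.Lattice2.AssembleProd
import Fermat.Agent.S33x.L1.OneOfCounts

set_option autoImplicit false
set_option linter.unusedSectionVars false
set_option linter.style.haveILetI false

noncomputable section

namespace Fermat.Agent.S33x.L1.OneOfProd

open AlgebraicCurve Module IntermediateField
open Fermat.Agent.Gateway.C0 Fermat.Agent.S34x.C0two Fermat.Agent.S34x.Lattice2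
open Fermat.Agent.S34x.Inst Fermat.Agent.S33x.L1.OneOfCounts

variable {K : Type*} [Field K] [IsAlgClosed K] [CharZero K] {A : ValuationSubring K}
  {F : Type*} [Field F] [Algebra K F] {S : SmallRing F}
  {k : Type*} [Field k] [IsAlgClosed k] {E : Type*} [Field E] [Algebra k E] {x : E}
  (hx : Transcendental k x) [FiniteDimensional k⟮x⟯ E] [Algebra.IsSeparable k⟮x⟯ E]
  {q : ℕ} (hq : 0 < q)
  {R : RedSetup2 A S k (E × E)} (C : ChartCoord R) (hT : C.T = (x, x ^ q))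
  (ht : Transcendental K C.t) [FiniteDimensional K⟮C.t⟯ F]
  {Dt : Divisor K F} (hDt : ∀ v : Place K F, Dt v = v.ord C.t)
  (hn : finrank K⟮C.t⟯ F = (q + 1) * finrank k⟮x⟯ E)
  (hcart : ∀ V : Submodule K F, FiniteDimensional K V → (R.lat V).FG)
  (hL2 : C.IsL2) (hL2₀ : C.swap.IsL2)
  (he : ∃ c : E, IsIntegral (Algebra.adjoin k {C.T.2}) c ∧ ((1 : E), c * C.T.2) ∈ C.Bbar)
  (he₀ : ∃ c : E, IsIntegral (Algebra.adjoin k {C.Ti.2}) c ∧
    ((1 : E), c * C.Ti.2) ∈ C.swap.Bbar)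
  {r : ℕ} (hr : 2 ≤ r)
  (hN1 : ∀ g : C.B₂, ∃ g' : C.B₂, ((0 : C.B₁), g - g' ^ r) ∈ C.BbarT)
  {r₀ : ℕ} (hr₀ : 2 ≤ r₀)
  (hN1₀ : ∀ g : C.swap.B₂, ∃ g' : C.swap.B₂, ((0 : C.swap.B₁), g - g' ^ r₀) ∈ C.swap.BbarT)

include hx hq hT ht hDt hn hcart hL2 hL2₀ he he₀ hr hN1 hr₀ hN1₀ in
/-- **(NL) at a two-component special fibre**: for every normalised pair `(w, D)` with
`p ^ e D = div w` (`p = char k`), the twisted lattices of `D` contain elements reducing to `1` on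
both charts. -/
theorem exists_res_eq_one_of_prod (p : ℕ) [Fact p.Prime] [CharP k p] {e : ℕ}
    {w : F} (hw0 : w ≠ 0) (hwO : w ∈ S.O) (hwiO : w⁻¹ ∈ S.O) (hw1 : R.res ⟨w, hwO⟩ = 1)
    {D : Divisor K F} (hD : ∀ v : Place K F, ((p ^ e : ℕ) : ℤ) * D v = v.ord w) :
    (∃ (b : ℕ) (h : F), h ∈ (TwoCharts.ofDivisor Dt).LM D 0 b ∧
      ∃ hh : h ∈ S.O, R.res ⟨h, hh⟩ = 1) ∧
    (∃ (a : ℕ) (h : F), h ∈ (TwoCharts.ofDivisor Dt).LM D a 0 ∧
      ∃ hh : h ∈ S.O, R.res ⟨h, hh⟩ = 1) := by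
  haveI := isSeparable_adjoin_of_charZero (K := K) C.t
  haveI hPfin : ∀ b, FiniteDimensional k (C.Pk 0 b) := fun b => CountsInst.finite_Pk hx hq C hT 0 b
  obtain ⟨b₀, hgen⟩ := exists_hgen_prod hx hq C hT
  obtain ⟨δ, -, b₂, hdimS, hdimN⟩ := CountsInst.exists_counts_prod hx hq C hT ht hDt hn
    (fun E' _ b => hcart _ ((TwoCharts.ofDivisor Dt).LM_finite ht E' 0 b))
  have hm0 : 0 < p ^ e := pow_pos (Fact.out : p.Prime).pos e
  have hD0 : Divisor.degree D = 0 := degree_eq_zero_of_ord ht hm0 hw0 hD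
  have key := exists_res_eq_one_both p (TwistFam.ofDivisor C ht hDt D hw0 hwO hwiO hw1 hD)
    (fg_lat_LN C ht hDt hcart) hPfin b₀ hgen hL2 hL2₀ he he₀ hr hN1 hr₀ hN1₀ δ b₂ hdimS
    (fun b hb => by
      rw [TwistFam.ofDivisor_L_one]
      exact hdimN D hD0 b hb)
  simpa only [TwistFam.ofDivisor_L_one] using key

end Fermat.Agent.S33x.L1.OneOfProd
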