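/-
P-S33, LAYER 1 (e) (helper43): the Cech cocycle of a class of `K_m`, in the `Lattice2` vocabulary.

For a normalised Kummer pair `(w, D)` (`p ^ e D = div w`, `w` a unit of `S.O` with `res w = 1`,
`p = char k`) at a two-component special fibre `E × E`, `T̄ = (x, x ^ q)`:

there are `a b`, `h ∈ L(D + b C∞) ∩ O` and `h' ∈ L(-D + a C₀) ∩ O`, both reducing to `1`, and their
product `c = h * h'` lies in `L(a C₀ + b C∞) ∩ O = Lam(a, b)` and reduces to `1`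
(`exists_cocycle_of_prod`).

`OneOfProd.exists_res_eq_one_of_prod` applied to `(w, D)` (chart `∞`) and to `(w⁻¹, -D)` (chart `0`).
-/
import Fermat.Agent.S33x.L1.OneOfProd

set_option autoImplicit false
set_option linter.unusedSectionVars false
set_option linter.style.haveILetI false

noncomputable section

namespace Fermat.Agent.S33x.L1.Cocycle

open AlgebraicCurve Module IntermediateField
open Fermat.Agent.Gateway.C0 Fermat.Agent.S34x.C0two Fermat.Agent.S34x.Lattice2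
open Fermat.Agent.S34x.Inst Fermat.Agent.S33x.L1.OneOfProd

variable {K : Type*} [Field K] [IsAlgClosed K] [CharZero K] {A : ValuationSubring K}
  {F : Type*} [Field F] [Algebra K F] {S : SmallRing F}
  {k : Type*} [Field k] [IsAlgClosed k] {E : Type*} [Field E] [Algebra k E] {x : E}
  (hx : Transcendental k x) [FiniteDimensional k⟮x⟯ E] [Algebra.IsSeparable k⟮x⟯ E]
  {q : ℕ} (hq : 0 < q)
  {R : RedSetup2 A S k (E × E)} (C : ChartCoord R) (hT : C.T = (x, x ^ q))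
  (ht : Transcendental K C.t) [FiniteDimensional K⟮C.t⟯ F]
  {Dt : Divisor K F} (hDt : ∀ v : Place K F, Dt v = v.ord C.t)
  (hn : finrank K⟮C.t⟯ F = (q + 1) * finrank k⟮x⟯ E)
  (hcart : ∀ V : Submodule K F, FiniteDimensional K V → (R.lat V).FG)
  (hL2 : C.IsL2) (hL2₀ : C.swap.IsL2)
  (he : ∃ c : E, IsIntegral (Algebra.adjoin k {C.T.2}) c ∧ ((1 : E), c * C.T.2) ∈ C.Bbar)
  (he₀ : ∃ c : E, IsIntegral (Algebra.adjoin k {C.Ti.2}) c ∧
    ((1 : E), c * C.Ti.2) ∈ C.swap.Bbar)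
  {r : ℕ} (hr : 2 ≤ r)
  (hN1 : ∀ g : C.B₂, ∃ g' : C.B₂, ((0 : C.B₁), g - g' ^ r) ∈ C.BbarT)
  {r₀ : ℕ} (hr₀ : 2 ≤ r₀)
  (hN1₀ : ∀ g : C.swap.B₂, ∃ g' : C.swap.B₂, ((0 : C.swap.B₁), g - g' ^ r₀) ∈ C.swap.BbarT)

/-- the normalisation of the inverse pair `(w⁻¹, -D)` -/
theorem res_inv_eq_one {w : F} (hw0 : w ≠ 0) (hwO : w ∈ S.O) (hwiO : w⁻¹ ∈ S.O)
    (hw1 : R.res ⟨w, hwO⟩ = 1) : R.res ⟨w⁻¹, hwiO⟩ = 1 := by
  have h1 : (⟨w, hwO⟩ : S.O) * ⟨w⁻¹, hwiO⟩ = 1 := Subtype.ext (mul_inv_cancel₀ hw0)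
  have h2 := congrArg R.res h1
  rwa [map_mul, hw1, one_mul, map_one] at h2

theorem ord_inv_of_ord {m : ℕ} {w : F} {D : Divisor K F}
    (hD : ∀ v : Place K F, (m : ℤ) * D v = v.ord w) (v : Place K F) :
    (m : ℤ) * (-D) v = v.ord w⁻¹ := by
  rw [v.ord_inv, ← hD v, Finsupp.neg_apply, mul_neg]

include hx hq hT ht hDt hn hcart hL2 hL2₀ he he₀ hr hN1 hr₀ hN1₀ in
/-- **The Cech cocycle of a class of `K_m`.** -/
theorem exists_cocycle_of_prod (p : ℕ) [Fact p.Prime] [CharP k p] {e : ℕ}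
    {w : F} (hw0 : w ≠ 0) (hwO : w ∈ S.O) (hwiO : w⁻¹ ∈ S.O) (hw1 : R.res ⟨w, hwO⟩ = 1)
    {D : Divisor K F} (hD : ∀ v : Place K F, ((p ^ e : ℕ) : ℤ) * D v = v.ord w) :
    ∃ (a b : ℕ) (h h' : F) (hh : h ∈ S.O) (hh' : h' ∈ S.O),
      h ∈ (TwoCharts.ofDivisor Dt).LM D 0 b ∧ R.res ⟨h, hh⟩ = 1 ∧
      h' ∈ (TwoCharts.ofDivisor Dt).LM (-D) a 0 ∧ R.res ⟨h', hh'⟩ = 1 ∧
      h * h' ∈ C.LN a b ∧ R.res ⟨h * h', S.O.mul_mem hh hh'⟩ = 1 := by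
  haveI := isSeparable_adjoin_of_charZero (K := K) C.t
  obtain ⟨⟨b, h, hL, hh, hres⟩, -⟩ := exists_res_eq_one_of_prod hx hq C hT ht hDt hn hcart hL2 hL2₀
    he he₀ hr hN1 hr₀ hN1₀ p hw0 hwO hwiO hw1 hD
  have hwi0 : w⁻¹ ≠ 0 := inv_ne_zero hw0
  have hwiiO : w⁻¹⁻¹ ∈ S.O := by rw [inv_inv]; exact hwO
  obtain ⟨-, ⟨a, h', hL', hh', hres'⟩⟩ := exists_res_eq_one_of_prod hx hq C hT ht hDt hn hcart hL2
    hL2₀ he he₀ hr hN1 hr₀ hN1₀ p (e := e) hwi0 hwiO hwiiO (res_inv_eq_one hw0 hwO hwiO hw1)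
    (ord_inv_of_ord hD)
  refine ⟨a, b, h, h', hh, hh', hL, hres, hL', hres', ?_, ?_⟩
  · rw [← LN_eq C ht hDt, ← TwoCharts.LM_zero_eq]
    have := mul_mem_rrs hL hL'
    unfold TwoCharts.LM at this ⊢
    convert this using 2
    rw [zero_add]
    have e1 : (TwoCharts.ofDivisor Dt).dv a b =
        (TwoCharts.ofDivisor Dt).dv 0 b + (TwoCharts.ofDivisor Dt).dv a 0 := by
      rw [← TwoCharts.dv_add, zero_add, add_zero]
    rw [e1]
    abel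
  · have : (⟨h * h', S.O.mul_mem hh hh'⟩ : S.O) = ⟨h, hh⟩ * ⟨h', hh'⟩ := rfl
    rw [this, map_mul, hres, hres', one_mul]

end Fermat.Agent.S33x.L1.Cocycle
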