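import Fermat.Agent.S33x.L1.OfProd
import Fermat.Agent.S34x.Inst.TheoremBHaupt

/-!
# S33, LAYER 1 at the good levels `M q` (`q` the residue characteristic, exponent `m = q ^ n`)

The concrete form of `exists_one_of_prod` for the `RedSetup2` of P-S34 at level `M q`, `q ∤ M`:
for every normalised pair `(w, D)` (`w` a unit of `O_∞ ⊓ O_0` with both reductions `1`,
`q ^ n D = div w`) there are elements of `O_∞ ⊓ O_0` reducing to `(1, 1)` in each of
`L(D + b C∞)`, `L(D + a C₀)`, `L(-D + b C∞)`, `L(-D + a C₀)`, where `C₀ - C∞ = div t`, `t = α t'`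
the chart function (`t' = x₄` if `4 ∣ M`, `q` odd; `t' = z₉` if `9 ∣ M`, `q = 2`).

All inputs are the landed `w`-independent lemmas of `S34x/Inst/TheoremBMq`; the hypothesis
`¬ q ∣ m` of P-S34 is NOT used (it only entered through the `m`-th root step of
`TwistCore.exists_global`).
-/

set_option autoImplicit false
set_option linter.style.haveILetI false
set_option linter.unusedSectionVars false

noncomputable section

namespace Fermat.Agent.S33x.L1.InstMq

open Fermat.Agent.S33x.L1.OfProd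

open ModularCurve AlgebraicCurve IntermediateField IsLocalRing Module
open Fermat.Agent.Gateway.Hecke Fermat.Agent.Gateway.ESC
open Fermat.Agent.Gateway.Red Fermat.Agent.Gateway.GoodRed Fermat.Agent.Gateway.AuxLevel
open Fermat.Agent.Gateway.GoodRed.ConjFamily Fermat.Agent.S24.Setup
open Fermat.Agent.Gateway.C0
open Fermat.Agent.S34x.TwoVal Fermat.Agent.S34x.C0two Fermat.Agent.S34x.Lattice2
open Fermat.Agent.S34x.Inst.L2 Fermat.Agent.S34x.Inst.IsL2Inst
open Fermat.Agent.S34x.Inst.RedSetupInst Fermat.Agent.S34x.Inst.ElementYRed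
open Fermat.Agent.S34x.Inst.ElementYInt Fermat.Agent.S34x.Inst.ElementYInt9
open Fermat.Agent.S34x.Inst.Charts Fermat.Agent.S34x.Inst.TheoremBMq
open Fermat.Agent.S34x.Inst

attribute [-instance] IsScalarTower.of_algHom

section Generic

variable {L : Type} [Field L] [Algebra ℚ L] [IsAlgClosed L] [Algebra.IsAlgebraic ℚ L]
  {A : ValuationSubring L} {k : Type} [Field k] {π : A →+* k} [IsAlgClosed k]
variable {M q : ℕ} [NeZero M] [NeZero q] [Fact q.Prime] [CharP k q] [PerfectRing k q]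
variable {hdeg : finrankAlong L (heckeAlphaBar L M q) = q + 1} {hq : q.Prime} {hqM : ¬ q ∣ M}
variable {hrk : ∀ x ∈ maximalIdeal A, ∀ c : A, c ≠ 0 → ∃ j : ℕ, c ∣ x ^ j}
  {hπ : Function.Surjective π}
variable (H : ResidueFacts A π M q hdeg hq hqM hrk hπ) (hA : A.LiesOverPrime q)
  (x : LaurentSeries ℤ) (hx : coeffMap (Int.castRingHom L) x ∈ FBar L M)
  (Hx : GoodLevelFactsT A π M q hπ hqM (tInt M x hx))

include Hx hA in
/-- **LAYER 1 at level `M q`** for the concrete chart `t = α t'` (`Dt = div t`): every normalised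
pair `(w, D)` with `q ^ n D = div w` has chart-wise trivialisations of `O(D)` and `O(-D)`. -/
theorem exists_one_chart (hxk : tbar k x ≠ 0) (hY : YFacts M q x hx)
    {Dt : Divisor L (FL L (M * q))}
    (hDt : ∀ v : Place L (FL L (M * q)), Dt v = v.ord (tA M q x hx)) (n : ℕ)
    {w : FL L (M * q)} (hw0 : w ≠ 0)
    (hwO : w ∈ (twoVal (valInfty A π M q hrk hπ hqM) (valZero A π M q hdeg hq hqM hrk hπ)).O)
    (hwiO : w⁻¹ ∈ (twoVal (valInfty A π M q hrk hπ hqM) (valZero A π M q hdeg hq hqM hrk hπ)).O)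
    (hw1 : (redSetup2 H hA).res ⟨w, hwO⟩ = 1)
    {D : Divisor L (FL L (M * q))}
    (hD : ∀ v : Place L (FL L (M * q)), ((q ^ n : ℕ) : ℤ) * D v = v.ord w) :
    ((∃ (b : ℕ) (y : FL L (M * q))
        (hy : y ∈ (twoVal (valInfty A π M q hrk hπ hqM)
          (valZero A π M q hdeg hq hqM hrk hπ)).O),
        y ∈ (TwoCharts.ofDivisor Dt).LM D 0 b ∧ (redSetup2 H hA).res ⟨y, hy⟩ = 1) ∧
      (∃ (a : ℕ) (y : FL L (M * q))
        (hy : y ∈ (twoVal (valInfty A π M q hrk hπ hqM)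
          (valZero A π M q hdeg hq hqM hrk hπ)).O),
        y ∈ (TwoCharts.ofDivisor Dt).LM D a 0 ∧ (redSetup2 H hA).res ⟨y, hy⟩ = 1)) ∧
    ((∃ (b : ℕ) (y : FL L (M * q))
        (hy : y ∈ (twoVal (valInfty A π M q hrk hπ hqM)
          (valZero A π M q hdeg hq hqM hrk hπ)).O),
        y ∈ (TwoCharts.ofDivisor Dt).LM (-D) 0 b ∧ (redSetup2 H hA).res ⟨y, hy⟩ = 1) ∧
      (∃ (a : ℕ) (y : FL L (M * q))
        (hy : y ∈ (twoVal (valInfty A π M q hrk hπ hqM)
          (valZero A π M q hdeg hq hqM hrk hπ)).O),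
        y ∈ (TwoCharts.ofDivisor Dt).LM (-D) a 0 ∧ (redSetup2 H hA).res ⟨y, hy⟩ = 1)) := by
  haveI : CharZero L := algebraRat.charZero L
  haveI := Hx.finite
  set C := chart H hA x hx Hx with hC
  have hCt : C.t = tA M q x hx := chart_t H hA x hx Hx
  have hqpos : 0 < q := (Fact.out : q.Prime).pos
  have hB := BridgeInst.bridge H hA
  -- the `k`-side coordinate
  have hT1 := T_fst_eq H hA x hx Hx C hCt
  have hxtr : Transcendental k C.T.1 := by rw [hT1]; exact Hx.trans_res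
  haveI hxfin : FiniteDimensional k⟮C.T.1⟯ (Fk k M) := by rw [hT1]; exact Hx.finite_res
  haveI hxsep : Algebra.IsSeparable k⟮C.T.1⟯ (Fk k M) := by rw [hT1]; exact Hx.sep_res
  -- the `L`-side coordinate
  have ht : Transcendental L C.t := by
    rw [hCt]; exact Charts.transcendental_tα L M q Hx.trans
  haveI htfin : FiniteDimensional L⟮C.t⟯ (FL L (M * q)) := by
    rw [hCt]; exact finiteDimensional_tA x hx Hx
  -- (L2) on both charts
  obtain ⟨hL2, hL2₀⟩ := BridgeInst.isL2_both H hA C Hx hCt hY.y3 hY.y3' x rfl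
  -- the separating elements
  have he := exists_he C x hx hB hCt hxk hY.y1 hY.y3'
  have he₀ := exists_he' C x hx hB hCt hxk hY.y2 hY.y3
  have hq2 : 2 ≤ q ^ 2 := by
    have := (Fact.out : q.Prime).two_le
    nlinarith
  haveI : ExpChar k q := ExpChar.prime (Fact.out : q.Prime)
  exact exists_one_of_prod hxtr hqpos C (T_eq H hA x hx Hx C hCt) ht
    (fun v => by rw [hCt]; exact hDt v) (finrank_eq H hA x hx Hx C hCt)
    (fun V hV => cartesian H hA x hx Hx V hV) hL2 hL2₀ he he₀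
    hq2 (hN1 H hA x hx Hx C hCt hY) hq2 (hN1₀ H hA x hx Hx C hCt hY)
    q n rfl hw0 hwO hwiO hw1 hD

end Generic

/-! ### The Hauptmodul `x₄` (`4 ∣ M`, `q` odd): closed form -/

section Four

variable {A : ValuationSubring Kbar} {k : Type} [Field k] {π : A →+* k} [IsAlgClosed k]
variable {M : ℕ} [NeZero M]
variable {q : ℕ} [NeZero q] [Fact q.Prime] [CharP k q] [PerfectRing k q]
variable {hdeg : finrankAlong Kbar (heckeAlphaBar Kbar M q) = q + 1} {hq : q.Prime}
  {hqM : ¬ q ∣ M}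
variable {hrk : ∀ x ∈ maximalIdeal A, ∀ c : A, c ≠ 0 → ∃ j : ℕ, c ∣ x ^ j}
  {hπ : Function.Surjective π}

/-- **LAYER 1 at level `M q`, `4 ∣ M`, `q` odd** (chart function `t = α x₄`, `Dt = div t`): every
normalised pair `(w, D)` with `q ^ n D = div w` has chart-wise trivialisations of `O(D)` and
`O(-D)`.  No hypothesis besides `H : ResidueFacts` and `hA : A.LiesOverPrime q`. -/
theorem exists_one_x4 (h4 : 4 ∣ M) (hq2 : q ≠ 2)
    (H : ResidueFacts A π M q hdeg hq hqM hrk hπ) (hA : A.LiesOverPrime q)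
    {Dt : Divisor Kbar (FL Kbar (M * q))}
    (hDt : ∀ v : Place Kbar (FL Kbar (M * q)),
      Dt v = v.ord (tA M q L4.x4 (x4_mem_FBar M h4))) (n : ℕ)
    {w : FL Kbar (M * q)} (hw0 : w ≠ 0)
    (hwO : w ∈ (twoVal (valInfty A π M q hrk hπ hqM) (valZero A π M q hdeg hq hqM hrk hπ)).O)
    (hwiO : w⁻¹ ∈ (twoVal (valInfty A π M q hrk hπ hqM) (valZero A π M q hdeg hq hqM hrk hπ)).O)
    (hw1 : (redSetup2 H hA).res ⟨w, hwO⟩ = 1)
    {D : Divisor Kbar (FL Kbar (M * q))}
    (hD : ∀ v : Place Kbar (FL Kbar (M * q)), ((q ^ n : ℕ) : ℤ) * D v = v.ord w) :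
    ((∃ (b : ℕ) (y : FL Kbar (M * q))
        (hy : y ∈ (twoVal (valInfty A π M q hrk hπ hqM)
          (valZero A π M q hdeg hq hqM hrk hπ)).O),
        y ∈ (TwoCharts.ofDivisor Dt).LM D 0 b ∧ (redSetup2 H hA).res ⟨y, hy⟩ = 1) ∧
      (∃ (a : ℕ) (y : FL Kbar (M * q))
        (hy : y ∈ (twoVal (valInfty A π M q hrk hπ hqM)
          (valZero A π M q hdeg hq hqM hrk hπ)).O),
        y ∈ (TwoCharts.ofDivisor Dt).LM D a 0 ∧ (redSetup2 H hA).res ⟨y, hy⟩ = 1)) ∧
    ((∃ (b : ℕ) (y : FL Kbar (M * q))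
        (hy : y ∈ (twoVal (valInfty A π M q hrk hπ hqM)
          (valZero A π M q hdeg hq hqM hrk hπ)).O),
        y ∈ (TwoCharts.ofDivisor Dt).LM (-D) 0 b ∧ (redSetup2 H hA).res ⟨y, hy⟩ = 1) ∧
      (∃ (a : ℕ) (y : FL Kbar (M * q))
        (hy : y ∈ (twoVal (valInfty A π M q hrk hπ hqM)
          (valZero A π M q hdeg hq hqM hrk hπ)).O),
        y ∈ (TwoCharts.ofDivisor Dt).LM (-D) a 0 ∧ (redSetup2 H hA).res ⟨y, hy⟩ = 1)) := by
  haveI : Algebra.IsAlgebraic ℚ Kbar := AlgebraicClosure.isAlgebraic ℚ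
  have hx : coeffMap (Int.castRingHom Kbar) L4.x4 ∈ FBar Kbar M := x4_mem_FBar M h4
  have Hx : GoodLevelFactsT A π M q hπ hqM (tInt M L4.x4 hx) :=
    LevelFactsTHaupt.l2Facts_x4 A π M q hπ hqM h4
  have hY : YFacts M q L4.x4 hx :=
    ⟨isIntegral_elY_x4 hx h4 hq hq2, isIntegral_elY_inv_x4 hx h4 hq hq2,
      isIntegral_tB_x4 hx h4 hq hq2, isIntegral_tB_inv_x4 hx h4 hq hq2⟩
  exact exists_one_chart H hA L4.x4 hx Hx (L4.x4k_ne_zero k) hY hDt n hw0 hwO hwiO hw1 hD

end Four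

end Fermat.Agent.S33x.L1.InstMq
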