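import Fermat.Agent.S33x.L1.Radical
import Fermat.Agent.S34x.Lattice2.UBBridge

/-!
# S33, LAYER 1 (`Lattice2` vocabulary): the twisted lattices contain an element reducing to `1`

Setting of `S34x/Lattice2`: `R : RedSetup2 A S k (κ₁ × κ₂)`, `C : ChartCoord R`,
`W : TwistFam C m` (`W.L i a b = L(i D + a C₀ + b C∞)`, `div u = m D`, `res u = 1`).

If the exponent `m = p ^ n` is a power of the characteristic exponent `p` of the residue field `k`,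
then under the `w`-independent hypotheses of `TwistFam.codim_main_of_isL2` and the node criterion
(N1) on both charts, for EVERY `i`:

* `one_mem_Nbar` : `1 ∈ W.Nbar i` and `1 ∈ W.swap.Nbar i`;
* `exists_one` : there are `b` and `h ∈ L(i D + b C∞) ∩ O` with `res h = 1`, and there are `a` and
  `h' ∈ L(i D + a C₀) ∩ O` with `res h' = 1`.

No invertibility of `m` in `A` is used: this is the point of LAYER 1 of the S33 blueprint
(the constants `c_j` of Lemma A satisfy `c_j ^ (p ^ n) = 1`, hence are `1`).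
-/

set_option autoImplicit false
set_option linter.unusedSectionVars false
set_option linter.style.haveILetI false

noncomputable section

namespace Fermat.Agent.S33x.L1.ChartOne

open Fermat.Agent.S33x.L1.Radical

open Module Fermat.Agent.S34x.C0two Fermat.Agent.S34x.Lattice2

variable {K : Type*} [Field K] {A : ValuationSubring K} {F : Type*} [Field F] [Algebra K F]
  {S : SmallRing F} {k κ₁ κ₂ : Type*} [Field k] [IsAlgClosed k] [CommRing κ₁] [CommRing κ₂]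
  [Algebra k κ₁] [Algebra k κ₂] {R : RedSetup2 A S k (κ₁ × κ₂)}
  {C : ChartCoord R} {m : ℕ} (W : TwistFam C m)

/-- `1 ∈ N_i` on one chart, from the codimension bound, (L2) and (N1). -/
theorem one_mem_Nbar_of_codim (hL2 : C.IsL2)
    [Module.Finite k ((C.B₁ × C.B₂) ⧸ Subalgebra.toSubmodule C.BbarT)]
    (q : ℕ) (hq : 2 ≤ q)
    (hN1 : ∀ g : C.B₂, ∃ g' : C.B₂, ((0 : C.B₁), g - g' ^ q) ∈ C.BbarT)
    (p : ℕ) [ExpChar k p] (n : ℕ) (hm : m = p ^ n) (i : ℕ)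
    [Module.Finite k ((C.B₁ × C.B₂) ⧸ W.NbarT i)]
    (hcodim : finrank k ((C.B₁ × C.B₂) ⧸ W.NbarT i) ≤
      finrank k ((C.B₁ × C.B₂) ⧸ Subalgebra.toSubmodule C.BbarT)) :
    (1 : κ₁ × κ₂) ∈ W.Nbar i := by
  have h1 : (1 : C.B₁ × C.B₂) ∈ W.NbarT i := by
    refine one_mem_of_pow_mem_of_codim_le C.BbarT hL2.h1 hL2.h2 q hq hN1 p n (W.NbarT i) hcodim ?_
    intro x hx
    rw [ChartCoord.mem_BbarT_iff, map_pow, ← hm]
    exact W.pow_mem_Bbar (W.mem_NbarT_iff.mp hx)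
  have h2 := W.mem_NbarT_iff.mp h1
  rwa [map_one] at h2

variable (hcart : ∀ b, (R.lat (C.LN 0 b)).FG)
  (hPfin : ∀ b, Module.Finite k (C.Pk 0 b)) (b₀ : ℕ)
  (hP : ∀ b, b₀ ≤ b → ∀ x ∈ C.Pk 0 (b + 1), ∃ p₁ ∈ C.Pk 0 b, ∃ p₂ ∈ C.Pk 0 b,
    x = p₁ + C.T * p₂)
  (hL2 : C.IsL2) (hL2' : C.swap.IsL2)
  (he : ∃ c : κ₂, IsIntegral (Algebra.adjoin k {C.T.2}) c ∧ ((1 : κ₁), c * C.T.2) ∈ C.Bbar)
  (he' : ∃ c : κ₂, IsIntegral (Algebra.adjoin k {C.Ti.2}) c ∧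
    ((1 : κ₁), c * C.Ti.2) ∈ C.swap.Bbar)
  (δ b₂ : ℕ)
  (hdimS : ∀ b, b₂ ≤ b → finrank k (C.Pk 0 b) = finrank k (R.redLat (C.LN 0 b)) + δ)
  {q : ℕ} (hq : 2 ≤ q)
  (hN1 : ∀ g : C.B₂, ∃ g' : C.B₂, ((0 : C.B₁), g - g' ^ q) ∈ C.BbarT)
  {q₀ : ℕ} (hq₀ : 2 ≤ q₀)
  (hN1₀ : ∀ g : C.swap.B₂, ∃ g' : C.swap.B₂, ((0 : C.swap.B₁), g - g' ^ q₀) ∈ C.swap.BbarT)
  (p : ℕ) [ExpChar k p] (n : ℕ) (hm : m = p ^ n)

include hcart hPfin hP hL2 hL2' he he' hdimS hq hN1 hq₀ hN1₀ hm in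
/-- **LAYER 1.**  For `m = p ^ n` a power of the residue characteristic, `1 ∈ N_i` on both
charts, for every `i` for which the Riemann-Roch count `hdimN` holds. -/
theorem one_mem_Nbar (i : ℕ)
    (hdimN : ∀ b, b₂ ≤ b → finrank k (C.Pk 0 b) ≤ finrank k (R.redLat (W.L i 0 b)) + δ) :
    (1 : κ₁ × κ₂) ∈ W.Nbar i ∧ (1 : κ₁ × κ₂) ∈ W.swap.Nbar i := by
  have hm0 : 0 < m := by
    rw [hm]
    exact pow_pos (expChar_pos k p) n
  obtain ⟨⟨i1, i2, -, hc1⟩, ⟨i3, i4, -, hc3⟩⟩ :=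
    W.codim_main_of_isL2 hm0 hcart hPfin b₀ hP hL2 hL2' he he' δ b₂ hdimS i hdimN
  exact ⟨one_mem_Nbar_of_codim W hL2 q hq hN1 p n hm i hc1,
    one_mem_Nbar_of_codim W.swap hL2' q₀ hq₀ hN1₀ p n hm i hc3⟩

include hcart hPfin hP hL2 hL2' he he' hdimS hq hN1 hq₀ hN1₀ hm in
/-- **LAYER 1, element form.**  `L(i D + b C∞) ∩ O` and `L(i D + a C₀) ∩ O` contain elements
reducing to `1`. -/
theorem exists_one (i : ℕ)
    (hdimN : ∀ b, b₂ ≤ b → finrank k (C.Pk 0 b) ≤ finrank k (R.redLat (W.L i 0 b)) + δ) :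
    (∃ (b : ℕ) (x : F) (hx : x ∈ S.O), x ∈ W.L i 0 b ∧ R.res ⟨x, hx⟩ = 1) ∧
      (∃ (a : ℕ) (x : F) (hx : x ∈ S.O), x ∈ W.L i a 0 ∧ R.res ⟨x, hx⟩ = 1) := by
  obtain ⟨h1, h2⟩ := one_mem_Nbar W hcart hPfin b₀ hP hL2 hL2' he he' δ b₂ hdimS hq hN1 hq₀ hN1₀
    p n hm i hdimN
  exact ⟨W.mem_Nbar_iff.mp h1, W.mem_swap_Nbar_iff.mp h2⟩

end Fermat.Agent.S33x.L1.ChartOne
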