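import Fermat.Agent.S33x.L1.ChartOne
import Fermat.Agent.S34x.Lattice2.AssembleCounts

/-!
# S33, LAYER 1 (divisor form): chart-wise trivialisations of `O(D)` and `O(-D)`

Setting of `S34x/Lattice2/AssembleCounts`.  Let `(w, D)` be a normalised pair (`w` a unit of `S.O`
with reduction `1`, `m D = div w`) with `m = p ^ n` a power of the characteristic exponent `p` of the
residue field `k`.  Under the `w`-independent hypotheses of `exists_const_mul_pow_of_counts`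
(WITHOUT the invertibility of `m` in `A` and without any Galois input) we get elements of `S.O`
reducing to `1` in each of

  `L(D + b C∞)`,  `L(D + a C₀)`,  `L(-D + b C∞)`,  `L(-D + a C₀)`.

This is LAYER 1 of the S33 blueprint: the line bundle `O(D̄)` is trivial on the nodal special
fibre.
-/

set_option autoImplicit false
set_option linter.unusedSectionVars false
set_option linter.style.haveILetI false

noncomputable section

namespace Fermat.Agent.S33x.L1.OfCounts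

open Fermat.Agent.S33x.L1.ChartOne

open AlgebraicCurve Module IntermediateField
open Fermat.Agent.Gateway.C0 Fermat.Agent.S34x.C0two Fermat.Agent.S34x.Lattice2

section rrs

variable {K F : Type*} [Field K] [Field F] [Algebra K F]

/-- multiplication by `u` with `div u = m D`, `m ≥ 1`: `u · L((m - 1) D + D') ⊆ L(-D + D')`. -/
theorem mul_mem_rrs_neg_of_div {D D' : Divisor K F} {m : ℕ} (hm : 0 < m) {u : F} (hu0 : u ≠ 0)
    (hD : ∀ v : Place K F, (m : ℤ) * D v = v.ord u) {x : F}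
    (hx : x ∈ riemannRochSpace ((m - 1) • D + D')) : u * x ∈ riemannRochSpace (-D + D') := by
  by_cases hx0 : x = 0
  · subst hx0; simp
  rw [mem_riemannRochSpace_iff] at hx ⊢
  intro v
  right
  have h := (hx v).resolve_left hx0
  rw [v.ord_mul hu0 hx0, ← hD v]
  simp only [Finsupp.add_apply, Finsupp.smul_apply, nsmul_eq_mul, Finsupp.neg_apply] at h ⊢
  have hm1 : ((m - 1 : ℕ) : ℤ) = (m : ℤ) - 1 := by
    rw [Nat.cast_sub hm, Nat.cast_one]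
  rw [hm1] at h
  linarith

end rrs

variable {K : Type*} [Field K] [IsAlgClosed K] [CharZero K] {A : ValuationSubring K}
  {F : Type*} [Field F] [Algebra K F] {S : SmallRing F}
  {k κ₁ κ₂ : Type*} [Field k] [IsAlgClosed k] [CommRing κ₁] [CommRing κ₂] [Algebra k κ₁]
  [Algebra k κ₂] [Nontrivial κ₁]
  {R : RedSetup2 A S k (κ₁ × κ₂)} (C : ChartCoord R)
  (ht : Transcendental K C.t) [FiniteDimensional K⟮C.t⟯ F]
  {Dt : Divisor K F} (hDt : ∀ v : Place K F, Dt v = v.ord C.t)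
  (hcart : ∀ V : Submodule K F, FiniteDimensional K V → (R.lat V).FG)
  [hPfin : ∀ b, FiniteDimensional k (C.Pk 0 b)] {b₀ : ℕ}
  (hgen : ∀ b, b₀ ≤ b → ∀ x ∈ C.Pk 0 (b + 1), ∃ y ∈ C.Pk 0 b, ∃ z ∈ C.Pk 0 b, x = y + C.T * z)
  (hL2 : C.IsL2) (hL2₀ : C.swap.IsL2)
  (he : ∃ c : κ₂, IsIntegral (Algebra.adjoin k {C.T.2}) c ∧ ((1 : κ₁), c * C.T.2) ∈ C.Bbar)
  (he₀ : ∃ c : κ₂, IsIntegral (Algebra.adjoin k {C.Ti.2}) c ∧
    ((1 : κ₁), c * C.Ti.2) ∈ C.swap.Bbar)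
  (δ b₂ : ℕ)
  (hdimS : ∀ b, b₂ ≤ b → finrank k (C.Pk 0 b) = finrank k (R.redLat (C.LN 0 b)) + δ)
  {q : ℕ} (hq : 2 ≤ q)
  (hN1 : ∀ g : C.B₂, ∃ g' : C.B₂, ((0 : C.B₁), g - g' ^ q) ∈ C.BbarT)
  {q₀ : ℕ} (hq₀ : 2 ≤ q₀)
  (hN1₀ : ∀ g : C.swap.B₂, ∃ g' : C.swap.B₂, ((0 : C.swap.B₁), g - g' ^ q₀) ∈ C.swap.BbarT)
  (hdimN : ∀ E : Divisor K F, Divisor.degree E = 0 → ∀ b, b₂ ≤ b →
    finrank k (C.Pk 0 b) ≤ finrank k (R.redLat ((TwoCharts.ofDivisor Dt).LM E 0 b)) + δ)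
  (p : ℕ) [ExpChar k p] (n : ℕ) {m : ℕ} (hm : m = p ^ n)

include ht hDt hcart hgen hL2 hL2₀ he he₀ hdimS hq hN1 hq₀ hN1₀ hdimN hm in
/-- **LAYER 1, all multiples of `D`**: for every `i`, `L(i D + b C∞) ∩ O` and `L(i D + a C₀) ∩ O`
contain elements reducing to `1`. -/
theorem exists_one_nsmul_of_counts
    {w : F} (hw0 : w ≠ 0) (hwO : w ∈ S.O) (hwiO : w⁻¹ ∈ S.O) (hw1 : R.res ⟨w, hwO⟩ = 1)
    {D : Divisor K F} (hD : ∀ v : Place K F, (m : ℤ) * D v = v.ord w) (i : ℕ) :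
    (∃ (b : ℕ) (x : F) (hx : x ∈ S.O),
        x ∈ (TwoCharts.ofDivisor Dt).LM (i • D) 0 b ∧ R.res ⟨x, hx⟩ = 1) ∧
      (∃ (a : ℕ) (x : F) (hx : x ∈ S.O),
        x ∈ (TwoCharts.ofDivisor Dt).LM (i • D) a 0 ∧ R.res ⟨x, hx⟩ = 1) := by
  haveI := isSeparable_adjoin_of_charZero (K := K) C.t
  have hm0 : 0 < m := by
    rw [hm]
    exact pow_pos (expChar_pos k p) n
  have hD0 : Divisor.degree D = 0 := degree_eq_zero_of_ord ht hm0 hw0 hD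
  have hfg := fg_lat_LN C ht hDt hcart
  exact exists_one (TwistFam.ofDivisor C ht hDt D hw0 hwO hwiO hw1 hD) hfg hPfin b₀ hgen hL2 hL2₀
    he he₀ δ b₂ hdimS hq hN1 hq₀ hN1₀ p n hm i
    (fun b hb => hdimN (i • D) (by rw [map_nsmul, hD0, smul_zero]) b hb)

include ht hDt hcart hgen hL2 hL2₀ he he₀ hdimS hq hN1 hq₀ hN1₀ hdimN hm in
/-- **LAYER 1**: chart-wise trivialisations of `O(D)` and of `O(-D)`: elements of `S.O` reducing to
`1` in `L(D + b C∞)`, `L(D + a C₀)`, `L(-D + b C∞)`, `L(-D + a C₀)`. -/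
theorem exists_one_of_counts
    {w : F} (hw0 : w ≠ 0) (hwO : w ∈ S.O) (hwiO : w⁻¹ ∈ S.O) (hw1 : R.res ⟨w, hwO⟩ = 1)
    {D : Divisor K F} (hD : ∀ v : Place K F, (m : ℤ) * D v = v.ord w) :
    ((∃ (b : ℕ) (x : F) (hx : x ∈ S.O),
        x ∈ (TwoCharts.ofDivisor Dt).LM D 0 b ∧ R.res ⟨x, hx⟩ = 1) ∧
      (∃ (a : ℕ) (x : F) (hx : x ∈ S.O),
        x ∈ (TwoCharts.ofDivisor Dt).LM D a 0 ∧ R.res ⟨x, hx⟩ = 1)) ∧
    ((∃ (b : ℕ) (x : F) (hx : x ∈ S.O),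
        x ∈ (TwoCharts.ofDivisor Dt).LM (-D) 0 b ∧ R.res ⟨x, hx⟩ = 1) ∧
      (∃ (a : ℕ) (x : F) (hx : x ∈ S.O),
        x ∈ (TwoCharts.ofDivisor Dt).LM (-D) a 0 ∧ R.res ⟨x, hx⟩ = 1)) := by
  have hm0 : 0 < m := by
    rw [hm]
    exact pow_pos (expChar_pos k p) n
  have h1 := exists_one_nsmul_of_counts C ht hDt hcart hgen hL2 hL2₀ he he₀ δ b₂ hdimS hq hN1 hq₀
    hN1₀ hdimN p n hm hw0 hwO hwiO hw1 hD 1
  rw [one_smul] at h1
  obtain ⟨⟨b, x, hx, hxL, hx1⟩, ⟨a, y, hy, hyL, hy1⟩⟩ :=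
    exists_one_nsmul_of_counts C ht hDt hcart hgen hL2 hL2₀ he he₀ δ b₂ hdimS hq hN1 hq₀
      hN1₀ hdimN p n hm hw0 hwO hwiO hw1 hD (m - 1)
  refine ⟨h1, ⟨b, w * x, S.O.mul_mem hwO hx, mul_mem_rrs_neg_of_div hm0 hw0 hD hxL, ?_⟩,
    ⟨a, w * y, S.O.mul_mem hwO hy, mul_mem_rrs_neg_of_div hm0 hw0 hD hyL, ?_⟩⟩
  · rw [res_mul R hwO hx, hw1, hx1, one_mul]
  · rw [res_mul R hwO hy, hw1, hy1, one_mul]

end Fermat.Agent.S33x.L1.OfCounts
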