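import Fermat.Agent.S33x.L1.OfCounts
import Fermat.Agent.S34x.Lattice2.AssembleProd

/-!
# S33, LAYER 1 at a two-component special fibre `E × E`, `T̄ = (x, x ^ q)`

`exists_one_of_counts` with the `k`-side inputs and the Riemann-Roch counts discharged as in
`S34x/Lattice2/AssembleProd` (`exists_hgen_prod`, `CountsInst.exists_counts_prod`).
-/

set_option autoImplicit false
set_option linter.unusedSectionVars false
set_option linter.style.haveILetI false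

noncomputable section

namespace Fermat.Agent.S33x.L1.OfProd

open Fermat.Agent.S33x.L1.OfCounts

open AlgebraicCurve Module IntermediateField
open Fermat.Agent.Gateway.C0 Fermat.Agent.S34x.C0two Fermat.Agent.S34x.Lattice2
open Fermat.Agent.S34x.Inst

variable {K : Type*} [Field K] [IsAlgClosed K] [CharZero K] {A : ValuationSubring K}
  {F : Type*} [Field F] [Algebra K F] {S : SmallRing F}
  {k : Type*} [Field k] [IsAlgClosed k] {E : Type*} [Field E] [Algebra k E] {x : E}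
  (hx : Transcendental k x) [FiniteDimensional k⟮x⟯ E] [Algebra.IsSeparable k⟮x⟯ E]
  {q : ℕ} (hq : 0 < q)
  {R : RedSetup2 A S k (E × E)} (C : ChartCoord R) (hT : C.T = (x, x ^ q))
  (ht : Transcendental K C.t) [FiniteDimensional K⟮C.t⟯ F]
  {Dt : Divisor K F} (hDt : ∀ v : Place K F, Dt v = v.ord C.t)
  (hn : finrank K⟮C.t⟯ F = (q + 1) * finrank k⟮x⟯ E)
  (hcart : ∀ V : Submodule K F, FiniteDimensional K V → (R.lat V).FG)
  (hL2 : C.IsL2) (hL2₀ : C.swap.IsL2)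
  (he : ∃ c : E, IsIntegral (Algebra.adjoin k {C.T.2}) c ∧ ((1 : E), c * C.T.2) ∈ C.Bbar)
  (he₀ : ∃ c : E, IsIntegral (Algebra.adjoin k {C.Ti.2}) c ∧
    ((1 : E), c * C.Ti.2) ∈ C.swap.Bbar)
  {r : ℕ} (hr : 2 ≤ r)
  (hN1 : ∀ g : C.B₂, ∃ g' : C.B₂, ((0 : C.B₁), g - g' ^ r) ∈ C.BbarT)
  {r₀ : ℕ} (hr₀ : 2 ≤ r₀)
  (hN1₀ : ∀ g : C.swap.B₂, ∃ g' : C.swap.B₂, ((0 : C.swap.B₁), g - g' ^ r₀) ∈ C.swap.BbarT)
  (p : ℕ) [ExpChar k p] (n : ℕ) {m : ℕ} (hm : m = p ^ n)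

include hx hq hT ht hDt hn hcart hL2 hL2₀ he he₀ hr hN1 hr₀ hN1₀ hm in
/-- **LAYER 1 at `E × E`, `T̄ = (x, x ^ q)`**: for every normalised pair `(w, D)` with
`m = p ^ n`, chart-wise trivialisations of `O(D)` and `O(-D)`. -/
theorem exists_one_of_prod
    {w : F} (hw0 : w ≠ 0) (hwO : w ∈ S.O) (hwiO : w⁻¹ ∈ S.O) (hw1 : R.res ⟨w, hwO⟩ = 1)
    {D : Divisor K F} (hD : ∀ v : Place K F, (m : ℤ) * D v = v.ord w) :
    ((∃ (b : ℕ) (y : F) (hy : y ∈ S.O),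
        y ∈ (TwoCharts.ofDivisor Dt).LM D 0 b ∧ R.res ⟨y, hy⟩ = 1) ∧
      (∃ (a : ℕ) (y : F) (hy : y ∈ S.O),
        y ∈ (TwoCharts.ofDivisor Dt).LM D a 0 ∧ R.res ⟨y, hy⟩ = 1)) ∧
    ((∃ (b : ℕ) (y : F) (hy : y ∈ S.O),
        y ∈ (TwoCharts.ofDivisor Dt).LM (-D) 0 b ∧ R.res ⟨y, hy⟩ = 1) ∧
      (∃ (a : ℕ) (y : F) (hy : y ∈ S.O),
        y ∈ (TwoCharts.ofDivisor Dt).LM (-D) a 0 ∧ R.res ⟨y, hy⟩ = 1)) := by
  haveI := isSeparable_adjoin_of_charZero (K := K) C.t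
  haveI hPfin : ∀ b, FiniteDimensional k (C.Pk 0 b) := fun b => CountsInst.finite_Pk hx hq C hT 0 b
  obtain ⟨b₀, hgen⟩ := exists_hgen_prod hx hq C hT
  obtain ⟨δ, -, b₂, hdimS, hdimN⟩ := CountsInst.exists_counts_prod hx hq C hT ht hDt hn
    (fun E' _ b => hcart _ ((TwoCharts.ofDivisor Dt).LM_finite ht E' 0 b))
  exact exists_one_of_counts C ht hDt hcart hgen hL2 hL2₀ he he₀ δ b₂ hdimS hr hN1 hr₀ hN1₀ hdimN
    p n hm hw0 hwO hwiO hw1 hD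

end Fermat.Agent.S33x.L1.OfProd
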