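/-
P-S33, LAYER 1 (d) (helper43): the CONCRETE (NL) at level `M q`, residue characteristic `q`, torsion
exponent `q ^ e`.

Mirror of `S34x/Inst/TheoremBMq.exists_const_mul_pow(_chart)`: for the concrete `RedSetup2` at level
`M q` (`redSetup2 H hA`), the concrete chart `t = α t'` and every normalised Kummer pair `(w, D)`
(`w` a unit of `O_∞ ⊓ O_0` with both reductions `1`, `q ^ e D = div w`) there are
`h ∈ L(D + b C∞) ∩ O` and `h' ∈ L(D + a C₀) ∩ O` reducing to `1`: the line bundle `O(D)` is trivial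
on both charts of the semistable model.  Apply it to `(w⁻¹, -D)` for the inverse trivialisations.

No hypothesis `¬ q ∣ m`: the torsion exponent IS a power of the residue characteristic.
-/
import Fermat.Agent.S34x.Inst.TheoremBMq
import Fermat.Agent.S33x.L1.OneOfProd

set_option autoImplicit false
set_option linter.style.haveILetI false
set_option linter.unusedSectionVars false

noncomputable section

namespace Fermat.Agent.S33x.L1.OneMq

open ModularCurve AlgebraicCurve IntermediateField IsLocalRing Module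
open Fermat.Agent.Gateway.Hecke Fermat.Agent.Gateway.ESC
open Fermat.Agent.Gateway.Red Fermat.Agent.Gateway.GoodRed
open Fermat.Agent.Gateway.GoodRed.ConjFamily
open Fermat.Agent.Gateway.C0
open Fermat.Agent.S34x.TwoVal Fermat.Agent.S34x.C0two Fermat.Agent.S34x.Lattice2
open Fermat.Agent.S34x.Inst.L2 Fermat.Agent.S34x.Inst.IsL2Inst
open Fermat.Agent.S34x.Inst.RedSetupInst Fermat.Agent.S34x.Inst.ElementYRed
open Fermat.Agent.S34x.Inst.ElementYInt Fermat.Agent.S34x.Inst.Charts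
open Fermat.Agent.S34x.Inst Fermat.Agent.S34x.Inst.TheoremBMq Fermat.Agent.S33x.L1.OneOfProd

attribute [-instance] IsScalarTower.of_algHom

variable {L : Type} [Field L] [Algebra ℚ L] [IsAlgClosed L] [Algebra.IsAlgebraic ℚ L]
  {A : ValuationSubring L} {k : Type} [Field k] {π : A →+* k} [IsAlgClosed k]
variable {M q : ℕ} [NeZero M] [NeZero q] [Fact q.Prime] [CharP k q]
variable {hdeg : finrankAlong L (heckeAlphaBar L M q) = q + 1} {hq : q.Prime} {hqM : ¬ q ∣ M}
variable {hrk : ∀ x ∈ maximalIdeal A, ∀ c : A, c ≠ 0 → ∃ j : ℕ, c ∣ x ^ j}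
  {hπ : Function.Surjective π}
variable (H : ResidueFacts A π M q hdeg hq hqM hrk hπ) (hA : A.LiesOverPrime q)
  (x : LaurentSeries ℤ) (hx : coeffMap (Int.castRingHom L) x ∈ FBar L M)
  (Hx : GoodLevelFactsT A π M q hπ hqM (tInt M x hx))

section General

variable (C : ChartCoord (redSetup2 H hA)) (hCt : C.t = tA M q x hx)

include Hx hCt hA in
/-- **(NL) at level `M q`** for a chart with coordinate `t = α t'`, (N1) as hypotheses. -/
theorem exists_res_eq_one (hxk : tbar k x ≠ 0) (hY : YFacts M q x hx) {e : ℕ}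
    {r : ℕ} (hr : 2 ≤ r)
    (hN1 : ∀ g : C.B₂, ∃ g' : C.B₂, ((0 : C.B₁), g - g' ^ r) ∈ C.BbarT)
    {r₀ : ℕ} (hr₀ : 2 ≤ r₀)
    (hN1₀ : ∀ g : C.swap.B₂, ∃ g' : C.swap.B₂, ((0 : C.swap.B₁), g - g' ^ r₀) ∈ C.swap.BbarT)
    {Dt : Divisor L (FL L (M * q))}
    (hDt : ∀ v : Place L (FL L (M * q)), Dt v = v.ord C.t)
    {w : FL L (M * q)} (hw0 : w ≠ 0)
    (hwO : w ∈ (twoVal (valInfty A π M q hrk hπ hqM) (valZero A π M q hdeg hq hqM hrk hπ)).O)
    (hwiO : w⁻¹ ∈ (twoVal (valInfty A π M q hrk hπ hqM) (valZero A π M q hdeg hq hqM hrk hπ)).O)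
    (hw1 : (redSetup2 H hA).res ⟨w, hwO⟩ = 1)
    {D : Divisor L (FL L (M * q))}
    (hD : ∀ v : Place L (FL L (M * q)), ((q ^ e : ℕ) : ℤ) * D v = v.ord w) :
    (∃ (b : ℕ) (h : FL L (M * q)), h ∈ (TwoCharts.ofDivisor Dt).LM D 0 b ∧
      ∃ hh : h ∈ (twoVal (valInfty A π M q hrk hπ hqM)
        (valZero A π M q hdeg hq hqM hrk hπ)).O, (redSetup2 H hA).res ⟨h, hh⟩ = 1) ∧
    (∃ (a : ℕ) (h : FL L (M * q)), h ∈ (TwoCharts.ofDivisor Dt).LM D a 0 ∧
      ∃ hh : h ∈ (twoVal (valInfty A π M q hrk hπ hqM)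
        (valZero A π M q hdeg hq hqM hrk hπ)).O, (redSetup2 H hA).res ⟨h, hh⟩ = 1) := by
  haveI : CharZero L := algebraRat.charZero L
  haveI := Hx.finite
  have hqpos : 0 < q := (Fact.out : q.Prime).pos
  have hB := BridgeInst.bridge H hA
  -- the `k`-side coordinate
  have hT1 := T_fst_eq H hA x hx Hx C hCt
  have hxtr : Transcendental k C.T.1 := by rw [hT1]; exact Hx.trans_res
  haveI hxfin : FiniteDimensional k⟮C.T.1⟯ (Fk k M) := by rw [hT1]; exact Hx.finite_res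
  haveI hxsep : Algebra.IsSeparable k⟮C.T.1⟯ (Fk k M) := by rw [hT1]; exact Hx.sep_res
  -- the `L`-side coordinate
  have ht : Transcendental L C.t := by
    rw [hCt]; exact Charts.transcendental_tα L M q Hx.trans
  haveI htfin : FiniteDimensional L⟮C.t⟯ (FL L (M * q)) := by
    rw [hCt]; exact finiteDimensional_tA x hx Hx
  -- (L2) on both charts
  obtain ⟨hL2, hL2₀⟩ := BridgeInst.isL2_both H hA C Hx hCt hY.y3 hY.y3' x rfl
  -- the separating elements
  have he := exists_he C x hx hB hCt hxk hY.y1 hY.y3'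
  have he₀ := exists_he' C x hx hB hCt hxk hY.y2 hY.y3
  exact exists_res_eq_one_of_prod hxtr hqpos C (T_eq H hA x hx Hx C hCt) ht hDt
    (finrank_eq H hA x hx Hx C hCt) (fun V hV => cartesian H hA x hx Hx V hV) hL2 hL2₀ he he₀
    hr hN1 hr₀ hN1₀ q hw0 hwO hwiO hw1 hD

end General

section Chart

variable [PerfectRing k q]

include Hx hA in
/-- **(NL) at level `M q`, final form**: for the concrete chart `chart H hA x hx Hx`, with (N1)
discharged (`TheoremBMq.hN1`, `hN1₀`, exponent `q ^ 2`). -/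
theorem exists_res_eq_one_chart (hxk : tbar k x ≠ 0) (hY : YFacts M q x hx) {e : ℕ}
    {Dt : Divisor L (FL L (M * q))}
    (hDt : ∀ v : Place L (FL L (M * q)), Dt v = v.ord (chart H hA x hx Hx).t)
    {w : FL L (M * q)} (hw0 : w ≠ 0)
    (hwO : w ∈ (twoVal (valInfty A π M q hrk hπ hqM) (valZero A π M q hdeg hq hqM hrk hπ)).O)
    (hwiO : w⁻¹ ∈ (twoVal (valInfty A π M q hrk hπ hqM) (valZero A π M q hdeg hq hqM hrk hπ)).O)
    (hw1 : (redSetup2 H hA).res ⟨w, hwO⟩ = 1)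
    {D : Divisor L (FL L (M * q))}
    (hD : ∀ v : Place L (FL L (M * q)), ((q ^ e : ℕ) : ℤ) * D v = v.ord w) :
    (∃ (b : ℕ) (h : FL L (M * q)), h ∈ (TwoCharts.ofDivisor Dt).LM D 0 b ∧
      ∃ hh : h ∈ (twoVal (valInfty A π M q hrk hπ hqM)
        (valZero A π M q hdeg hq hqM hrk hπ)).O, (redSetup2 H hA).res ⟨h, hh⟩ = 1) ∧
    (∃ (a : ℕ) (h : FL L (M * q)), h ∈ (TwoCharts.ofDivisor Dt).LM D a 0 ∧
      ∃ hh : h ∈ (twoVal (valInfty A π M q hrk hπ hqM)
        (valZero A π M q hdeg hq hqM hrk hπ)).O, (redSetup2 H hA).res ⟨h, hh⟩ = 1) := by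
  have hq2 : 2 ≤ q ^ 2 := by
    have := (Fact.out : q.Prime).two_le
    nlinarith
  exact exists_res_eq_one H hA x hx Hx (chart H hA x hx Hx) (chart_t H hA x hx Hx) hxk hY
    hq2 (hN1 H hA x hx Hx _ (chart_t H hA x hx Hx) hY) hq2
    (hN1₀ H hA x hx Hx _ (chart_t H hA x hx Hx) hY) hDt hw0 hwO hwiO hw1 hD

end Chart

end Fermat.Agent.S33x.L1.OneMq
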