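import Fermat.Agent.S34x.Goursat

/-!
# S33, LAYER 1 (abstract part): the glued ring is `p`-power radical in the normalisation

`Bb ≤ B1 × B2` a subalgebra with surjective projections and finite codimension over a field `k`
of characteristic `p`, such that every element of `B2` is a `q`-th power modulo the Goursat ideal
(`q ≥ 2`; criterion (N1) of P-S34: the glueing ring `R = B2 ⧸ I2` is reduced).  Then

* `mem_of_pow_mem` : `x ^ (p ^ n) ∈ Bb → x ∈ Bb` (Frobenius is injective on the reduced ring `R`);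
* `eq_of_pow_mem_of_codim_le` : a `k`-subspace `N` of `B1 × B2` with `x ^ (p ^ n) ∈ Bb` on `N` and of
  codimension at most that of `Bb` is EQUAL to `Bb`; in particular `1 ∈ N`
  (`one_mem_of_pow_mem_of_codim_le`).

This replaces Lemma A + Lemma B of `S34x/NodeLinAlg` when the exponent `m = p ^ n` is a power of
the residue characteristic: the constants `c_j` with `c_j ^ m = 1` are all `1`.
-/

set_option autoImplicit false
set_option linter.unusedSectionVars false
set_option linter.style.haveILetI false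

namespace Fermat.Agent.S33x.L1.Radical

open Module Fermat.Agent.S34x

section Linear

variable {k V : Type*} [Field k] [AddCommGroup V] [Module k V]

/-- Two nested subspaces of finite codimension, the smaller one of codimension at most that of the
bigger one, are equal. -/
theorem eq_of_le_of_finrank_quotient_le {N S : Submodule k V} (hle : N ≤ S)
    [Module.Finite k (V ⧸ N)] (hcodim : finrank k (V ⧸ N) ≤ finrank k (V ⧸ S)) : N = S := by
  classical
  -- the canonical surjection `V ⧸ N → V ⧸ S`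
  let f : (V ⧸ N) →ₗ[k] (V ⧸ S) := N.mapQ S LinearMap.id (by simpa using hle)
  have hf : Function.Surjective f := by
    intro y
    obtain ⟨v, rfl⟩ := S.mkQ_surjective y
    exact ⟨N.mkQ v, rfl⟩
  haveI : Module.Finite k (V ⧸ S) := Module.Finite.of_surjective f hf
  have hfin : finrank k (V ⧸ N) = finrank k (V ⧸ S) :=
    le_antisymm hcodim (LinearMap.finrank_le_finrank_of_surjective hf)
  have hinj : Function.Injective f :=
    (LinearMap.injective_iff_surjective_of_finrank_eq_finrank hfin).2 hf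
  refine le_antisymm hle fun v hv => ?_
  have h0 : f (N.mkQ v) = 0 := by
    show S.mkQ v = 0
    simpa using hv
  have := hinj (h0.trans (map_zero f).symm)
  exact (Submodule.Quotient.mk_eq_zero N).1 this

end Linear

section Radical

variable {k B1 B2 : Type*} [Field k] [IsAlgClosed k] [CommRing B1] [CommRing B2] [Algebra k B1]
  [Algebra k B2] (Bb : Subalgebra k (B1 × B2))
  (h1 : ∀ f : B1, ∃ g : B2, (f, g) ∈ Bb) (h2 : ∀ g : B2, ∃ f : B1, (f, g) ∈ Bb)

include h1 h2 in
/-- **The glued ring is `p`-power radical**: if the glueing ring is reduced ((N1)) and `k` has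
characteristic `p`, then `x ^ (p ^ n) ∈ Bb` implies `x ∈ Bb`. -/
theorem mem_of_pow_mem [Module.Finite k ((B1 × B2) ⧸ Subalgebra.toSubmodule Bb)]
    (q : ℕ) (hq : 2 ≤ q) (hpow : ∀ g : B2, ∃ g' : B2, ((0 : B1), g - g' ^ q) ∈ Bb)
    (p : ℕ) [ExpChar k p] (n : ℕ) {x : B1 × B2} (hx : x ^ (p ^ n) ∈ Bb) : x ∈ Bb := by
  haveI := Goursat.isReduced_R Bb h1 h2 q hq hpow
  rw [Goursat.mem_iff Bb h1 h2] at hx ⊢
  rw [Prod.pow_fst, Prod.pow_snd, map_pow, map_pow] at hx
  rcases subsingleton_or_nontrivial (Goursat.R Bb h2) with hsub | hnt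
  · exact Subsingleton.elim _ _
  · haveI : ExpChar (Goursat.R Bb h2) p :=
      expChar_of_injective_algebraMap (algebraMap k (Goursat.R Bb h2)).injective p
    apply iterateFrobenius_inj (Goursat.R Bb h2) p n
    rw [iterateFrobenius_def, iterateFrobenius_def]
    exact hx

include h1 h2 in
/-- A subspace `N` of `B1 × B2` with `x ^ (p ^ n) ∈ Bb` for all `x ∈ N` and of codimension at most
that of `Bb` is equal to `Bb`. -/
theorem eq_of_pow_mem_of_codim_le [Module.Finite k ((B1 × B2) ⧸ Subalgebra.toSubmodule Bb)]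
    (q : ℕ) (hq : 2 ≤ q) (hpow : ∀ g : B2, ∃ g' : B2, ((0 : B1), g - g' ^ q) ∈ Bb)
    (p : ℕ) [ExpChar k p] (n : ℕ) (N : Submodule k (B1 × B2)) [Module.Finite k ((B1 × B2) ⧸ N)]
    (hcodim : finrank k ((B1 × B2) ⧸ N) ≤ finrank k ((B1 × B2) ⧸ Subalgebra.toSubmodule Bb))
    (hN : ∀ x ∈ N, x ^ (p ^ n) ∈ Bb) : N = Subalgebra.toSubmodule Bb :=
  eq_of_le_of_finrank_quotient_le
    (fun x hx => mem_of_pow_mem Bb h1 h2 q hq hpow p n (hN x hx)) hcodim

include h1 h2 in
/-- In particular `1 ∈ N`. -/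
theorem one_mem_of_pow_mem_of_codim_le
    [Module.Finite k ((B1 × B2) ⧸ Subalgebra.toSubmodule Bb)]
    (q : ℕ) (hq : 2 ≤ q) (hpow : ∀ g : B2, ∃ g' : B2, ((0 : B1), g - g' ^ q) ∈ Bb)
    (p : ℕ) [ExpChar k p] (n : ℕ) (N : Submodule k (B1 × B2)) [Module.Finite k ((B1 × B2) ⧸ N)]
    (hcodim : finrank k ((B1 × B2) ⧸ N) ≤ finrank k ((B1 × B2) ⧸ Subalgebra.toSubmodule Bb))
    (hN : ∀ x ∈ N, x ^ (p ^ n) ∈ Bb) : (1 : B1 × B2) ∈ N := by
  rw [eq_of_pow_mem_of_codim_le Bb h1 h2 q hq hpow p n N hcodim hN]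
  exact Bb.one_mem

end Radical

end Fermat.Agent.S33x.L1.Radical
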